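import Fermat.Agent.S05.Mult63.Formulas
import Mathlib.RingTheory.Valuation.Basic

set_option autoImplicit false

namespace Fermat.Agent.S05.Mult63

variable {K : Type*} [Field K] {Γ₀ : Type*} [LinearOrderedCommGroupWithZero Γ₀]
  (v : Valuation K Γ₀)

lemma vlt_mul {a b : K} (ha : v a < 1) (hb : v b ≤ 1) : v (a * b) < 1 := by
  rw [map_mul]; exact mul_lt_one_of_nonneg_of_lt_one_left zero_le ha hb

lemma vdiv_lt_one {a b : K} (h : v a < v b) : v (a / b) < 1 := by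
  rw [map_div₀]
  exact (div_lt_one₀ (lt_of_le_of_lt zero_le h)).2 h

lemma val_eq_one_of_sq {r u : K} (hu : v u = 1) (hr : v (r ^ 2 - u) < 1) : v r = 1 := by
  have h : v (r ^ 2) = 1 := by
    have : r ^ 2 = u + (r ^ 2 - u) := by ring
    rw [this, v.map_add_eq_of_lt_left (by rw [hu]; exact hr), hu]
  rw [map_pow] at h
  exact (pow_eq_one_iff_of_nonneg zero_le two_ne_zero).1 h

/-- the sum of two elements congruent to `r` has valuation one -/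
lemma val_add_eq_one {s₁ s₂ r : K} (h2 : v 2 = 1) (hr1 : v r = 1) (h₁ : v (s₁ - r) < 1)
    (h₂ : v (s₂ - r) < 1) : v (s₁ + s₂) = 1 := by
  have h : s₁ + s₂ = 2 * r + ((s₁ - r) + (s₂ - r)) := by ring
  have h2r : v (2 * r) = 1 := by rw [map_mul, h2, hr1, one_mul]
  rw [h, v.map_add_eq_of_lt_left (by rw [h2r]; exact v.map_add_lt h₁ h₂), h2r]

lemma core_same {x₁ x₂ x₃ s₁ s₂ s₃ r u w : K}
    (hx₁ : x₁ ≠ 0) (hx₂ : x₂ ≠ 0) (hx₃ : x₃ ≠ 0)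
    (hX : x₃ * (x₁ * x₂ * (s₁ + s₂) ^ 2) = (x₁ * x₂ - w) ^ 2)
    (hY : s₃ * (s₁ + s₂) = s₁ * s₂ + u + w / x₁ + w / x₂ + w * (x₁ * x₂ - w) / (x₁ * x₂ * x₃))
    (ht : 1 ≤ v (s₁ + s₂)) (hωt : v w * v (s₁ + s₂) < v x₁ * v x₂)
    (h₁ : v (s₁ - r) ≤ v (s₁ + s₂)) (h₂ : v (s₂ - r) < 1) (hr : v (r ^ 2 - u) < 1)
    (hw₁ : v w < v x₁) (hw₂ : v w < v x₂) :
    v x₃ * v (s₁ + s₂) ^ 2 = v x₁ * v x₂ ∧ v (s₃ - r) < 1 := by
  set t := v (s₁ + s₂) with htdef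
  have ht0 : 0 < t := zero_lt_one.trans_le ht
  have ha : v x₁ ≠ 0 := (v.ne_zero_iff).2 hx₁
  have hb : v x₂ ≠ 0 := (v.ne_zero_iff).2 hx₂
  have hc : v x₃ ≠ 0 := (v.ne_zero_iff).2 hx₃
  have hab : v x₁ * v x₂ ≠ 0 := mul_ne_zero ha hb
  have hωm : v w < v x₁ * v x₂ := (le_mul_of_one_le_right zero_le ht).trans_lt hωt
  have hsub : v (x₁ * x₂ - w) = v x₁ * v x₂ := by
    rw [← map_mul]
    exact v.map_sub_eq_of_lt_left (by rwa [map_mul])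
  have hv := congrArg v hX
  simp only [map_mul, map_pow, hsub] at hv
  rw [← htdef] at hv
  have hv' : v x₃ * t ^ 2 = v x₁ * v x₂ := by
    apply mul_left_cancel₀ hab
    calc v x₁ * v x₂ * (v x₃ * t ^ 2) = v x₃ * (v x₁ * v x₂ * t ^ 2) := by ac_rfl
      _ = (v x₁ * v x₂) ^ 2 := hv
      _ = v x₁ * v x₂ * (v x₁ * v x₂) := sq _
  refine ⟨hv', ?_⟩
  have key : (s₃ - r) * (s₁ + s₂) = (s₁ - r) * (s₂ - r) + -(r ^ 2 - u) + w / x₁ + w / x₂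
      + w * (x₁ * x₂ - w) / (x₁ * x₂ * x₃) := by
    linear_combination hY
  have hL : v (w * (x₁ * x₂ - w) / (x₁ * x₂ * x₃)) < t := by
    rw [map_div₀, map_mul, hsub, map_mul, map_mul]
    rw [div_lt_iff₀ (zero_lt_iff.2 (mul_ne_zero hab hc))]
    have h3 : v w < t * v x₃ := by
      have : v w * t < (t * v x₃) * t := by
        calc v w * t < v x₁ * v x₂ := hωt
          _ = v x₃ * t ^ 2 := hv'.symm
          _ = (t * v x₃) * t := by rw [sq]; ac_rfl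
      exact lt_of_mul_lt_mul_right this zero_le
    calc v w * (v x₁ * v x₂) < (t * v x₃) * (v x₁ * v x₂) :=
          mul_lt_mul_of_pos_right h3 (zero_lt_iff.2 hab)
      _ = t * (v x₁ * v x₂ * v x₃) := by ac_rfl
  have hN : v ((s₃ - r) * (s₁ + s₂)) < t := by
    rw [key]
    refine v.map_add_lt (v.map_add_lt (v.map_add_lt (v.map_add_lt ?_ ?_) ?_) ?_) hL
    · rw [map_mul]
      calc v (s₁ - r) * v (s₂ - r) ≤ t * v (s₂ - r) := mul_le_mul' h₁ le_rfl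
        _ < t * 1 := mul_lt_mul_of_pos_left h₂ ht0
        _ = t := mul_one _
    · rw [Valuation.map_neg]; exact hr.trans_le ht
    · exact (vdiv_lt_one v hw₁).trans_le ht
    · exact (vdiv_lt_one v hw₂).trans_le ht
  rw [map_mul, ← htdef] at hN
  by_contra hcon
  rw [not_lt] at hcon
  exact absurd (le_mul_of_one_le_left zero_le hcon) (not_le.2 hN)

lemma core_flip {x₁ x₂ x₃ s₁ s₂ s₃ r u w : K}
    (hx₁ : x₁ ≠ 0) (hx₂ : x₂ ≠ 0) (hx₃ : x₃ ≠ 0)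
    (hX : x₃ * (x₁ * x₂ * (s₁ + s₂) ^ 2) = (x₁ * x₂ - w) ^ 2)
    (hY : s₃ * (s₁ + s₂) = s₁ * s₂ + u + w / x₁ + w / x₂ + w * (x₁ * x₂ - w) / (x₁ * x₂ * x₃))
    (h2 : v 2 = 1) (hr1 : v r = 1)
    (h₁ : v (s₁ - r) < 1) (h₂ : v (s₂ - r) < 1) (hr : v (r ^ 2 - u) < 1)
    (hw₁ : v w < v x₁) (hw₂ : v w < v x₂) (hlt : v x₁ * v x₂ < v w) :
    v x₃ * (v x₁ * v x₂) = v w ^ 2 ∧ v (s₃ + r) < 1 := by
  have ht : v (s₁ + s₂) = 1 := val_add_eq_one v h2 hr1 h₁ h₂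
  have hs0 : s₁ + s₂ ≠ 0 := by
    intro h; rw [h] at ht; simp at ht
  have hsub : v (x₁ * x₂ - w) = v w := by
    exact v.map_sub_eq_of_lt_right (by rwa [map_mul])
  have hd0 : x₁ * x₂ - w ≠ 0 := by
    intro h
    rw [h, map_zero] at hsub
    rw [← hsub] at hlt
    exact absurd hlt (not_lt.2 zero_le)
  have hv := congrArg v hX
  simp only [map_mul, map_pow, hsub, ht, one_pow, mul_one] at hv
  refine ⟨hv, ?_⟩
  have hL : w * (x₁ * x₂ - w) / (x₁ * x₂ * x₃) = w * (s₁ + s₂) ^ 2 / (x₁ * x₂ - w) := by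
    rw [div_eq_div_iff (mul_ne_zero (mul_ne_zero hx₁ hx₂) hx₃) hd0]
    linear_combination (-w) * hX
  have key : (s₃ + r) * (s₁ + s₂) = -(r ^ 2 - u) + (s₁ - r) * (-(2 * r) - (s₁ - r))
      + (s₂ - r) * (-(2 * r) - (s₁ - r) - (s₂ - r)) + w / x₁ + w / x₂
      + (s₁ + s₂) ^ 2 * (x₁ * x₂ / (x₁ * x₂ - w)) := by
    have : (s₁ + s₂) ^ 2 * (x₁ * x₂ / (x₁ * x₂ - w)) =
        (s₁ + s₂) ^ 2 + w * (s₁ + s₂) ^ 2 / (x₁ * x₂ - w) := by
      field_simp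
      ring
    rw [this, ← hL]
    linear_combination hY
  have h2r : v (2 * r) = 1 := by rw [map_mul, h2, hr1, one_mul]
  have hN : v ((s₃ + r) * (s₁ + s₂)) < 1 := by
    rw [key]
    refine v.map_add_lt (v.map_add_lt (v.map_add_lt (v.map_add_lt (v.map_add_lt ?_ ?_) ?_) ?_) ?_) ?_
    · rw [Valuation.map_neg]; exact hr
    · refine vlt_mul v h₁ (v.map_sub_le ?_ h₁.le)
      rw [Valuation.map_neg, h2r]
    · refine vlt_mul v h₂ (v.map_sub_le (v.map_sub_le ?_ h₁.le) h₂.le)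
      rw [Valuation.map_neg, h2r]
    · exact vdiv_lt_one v hw₁
    · exact vdiv_lt_one v hw₂
    · rw [map_mul, map_pow, ht, one_pow, one_mul]
      apply vdiv_lt_one
      rw [hsub, map_mul]; exact hlt
  rwa [map_mul, ht, mul_one] at hN

end Fermat.Agent.S05.Mult63
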