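import Mathlib.AlgebraicGeometry.EllipticCurve.Affine.Point
import Mathlib.Tactic

set_option autoImplicit false

namespace Fermat.Agent.S05.Mult63

open WeierstrassCurve WeierstrassCurve.Affine

variable {K : Type*} [Field K]

/-- The curve is of the shape `y² = x³ + u x² + w x`. -/
structure IsLeg (W : Affine K) : Prop where
  a₁ : W.a₁ = 0
  a₃ : W.a₃ = 0
  a₆ : W.a₆ = 0

variable {W : Affine K}

lemma IsLeg.equation_iff (hW : IsLeg W) (x y : K) :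
    W.Equation x y ↔ y ^ 2 = x ^ 3 + W.a₂ * x ^ 2 + W.a₄ * x := by
  rw [Affine.equation_iff, hW.a₁, hW.a₃, hW.a₆]
  constructor <;> intro h <;> linear_combination h

lemma IsLeg.negY (hW : IsLeg W) (x y : K) : W.negY x y = -y := by
  rw [Affine.negY, hW.a₁, hW.a₃]; ring

variable [DecidableEq K]

/-- The addition formulas in `(x, s = y/x)` coordinates, valid for chords and tangents. -/
lemma IsLeg.add_some (hW : IsLeg W) {x₁ y₁ x₂ y₂ : K} (h₁ : W.Nonsingular x₁ y₁)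
    (h₂ : W.Nonsingular x₂ y₂) (hx₁ : x₁ ≠ 0) (hx₂ : x₂ ≠ 0) (hs : y₁ / x₁ + y₂ / x₂ ≠ 0) :
    ∃ x₃ y₃, ∃ h₃ : W.Nonsingular x₃ y₃,
      Point.some x₁ y₁ h₁ + Point.some x₂ y₂ h₂ = Point.some x₃ y₃ h₃ ∧
      x₃ * (x₁ * x₂ * (y₁ / x₁ + y₂ / x₂) ^ 2) = (x₁ * x₂ - W.a₄) ^ 2 ∧
      y₃ * (y₁ / x₁ + y₂ / x₂) =
        x₃ * (y₁ / x₁ * (y₂ / x₂) + W.a₂ + W.a₄ / x₁ + W.a₄ / x₂)
          + W.a₄ * (x₁ * x₂ - W.a₄) / (x₁ * x₂) := by
  have e₁ := (hW.equation_iff x₁ y₁).1 h₁.1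
  have e₂ := (hW.equation_iff x₂ y₂).1 h₂.1
  by_cases hx : x₁ = x₂
  · subst hx
    have hy : y₁ = y₂ := by
      have h : (y₁ - y₂) * (y₁ + y₂) = 0 := by linear_combination e₁ - e₂
      rcases mul_eq_zero.1 h with h | h
      · exact sub_eq_zero.1 h
      · exfalso; apply hs
        rw [← add_div, h, zero_div]
    subst hy
    have h2y : 2 * y₁ ≠ 0 := by
      intro h
      apply hs
      rw [← add_div, ← two_mul, h, zero_div]
    have h2 : (2 : K) ≠ 0 := left_ne_zero_of_mul h2y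
    have hy0 : y₁ ≠ 0 := right_ne_zero_of_mul h2y
    have hne : y₁ ≠ W.negY x₁ y₁ := by
      rw [hW.negY]
      intro h
      apply h2y
      linear_combination h
    refine ⟨_, _, _, Point.add_self_of_Y_ne hne, ?_, ?_⟩
    · rw [Affine.slope_of_Y_ne rfl hne, Affine.addX, hW.negY, hW.a₁]
      have hw : W.a₄ = y₁ ^ 2 / x₁ - x₁ ^ 2 - W.a₂ * x₁ := by
        field_simp
        linear_combination -e₁
      have h2y' : y₁ - -y₁ = 2 * y₁ := by ring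
      rw [h2y', hw]
      field_simp
      ring
    · rw [Affine.slope_of_Y_ne rfl hne, Affine.addY, Affine.negAddY, Affine.addX, hW.negY, hW.negY,
        hW.a₁]
      have hw : W.a₄ = y₁ ^ 2 / x₁ - x₁ ^ 2 - W.a₂ * x₁ := by
        field_simp
        linear_combination -e₁
      have h2y' : y₁ - -y₁ = 2 * y₁ := by ring
      rw [h2y', hw]
      field_simp
      ring
  · have hx' : x₁ - x₂ ≠ 0 := sub_ne_zero.2 hx
    have hu : W.a₂ = (y₁ ^ 2 / x₁ - y₂ ^ 2 / x₂) / (x₁ - x₂) - (x₁ + x₂) := by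
      field_simp
      linear_combination x₁ * e₂ - x₂ * e₁
    have hw : W.a₄ = y₁ ^ 2 / x₁ - x₁ ^ 2
        - ((y₁ ^ 2 / x₁ - y₂ ^ 2 / x₂) / (x₁ - x₂) - (x₁ + x₂)) * x₁ := by
      rw [← hu]
      field_simp
      linear_combination -e₁
    refine ⟨_, _, _, Point.add_of_X_ne hx, ?_, ?_⟩
    · rw [Affine.slope_of_X_ne hx, Affine.addX, hW.a₁, hw, hu]
      field_simp
      ring
    · rw [Affine.slope_of_X_ne hx, Affine.addY, Affine.negAddY, Affine.addX, hW.negY, hW.a₁, hw, hu]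
      field_simp
      ring

omit [DecidableEq K] in
lemma IsLeg.s_sq (hW : IsLeg W) {x y : K} (h : W.Equation x y) (hx : x ≠ 0) :
    (y / x) ^ 2 = x + W.a₂ + W.a₄ / x := by
  have e := (hW.equation_iff x y).1 h
  field_simp
  linear_combination e

/-- Either the sum is zero or the addition formulas hold (when `x₁ x₂ ≠ w`). -/
lemma IsLeg.add_cases (hW : IsLeg W) {x₁ y₁ x₂ y₂ : K} (h₁ : W.Nonsingular x₁ y₁)
    (h₂ : W.Nonsingular x₂ y₂) (hx₁ : x₁ ≠ 0) (hx₂ : x₂ ≠ 0) (hne : x₁ * x₂ ≠ W.a₄) :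
    (y₁ / x₁ + y₂ / x₂ = 0 ∧ Point.some x₁ y₁ h₁ + Point.some x₂ y₂ h₂ = 0) ∨
    (y₁ / x₁ + y₂ / x₂ ≠ 0 ∧ ∃ x₃ y₃, ∃ h₃ : W.Nonsingular x₃ y₃, x₃ ≠ 0 ∧
      Point.some x₁ y₁ h₁ + Point.some x₂ y₂ h₂ = Point.some x₃ y₃ h₃ ∧
      x₃ * (x₁ * x₂ * (y₁ / x₁ + y₂ / x₂) ^ 2) = (x₁ * x₂ - W.a₄) ^ 2 ∧
      y₃ / x₃ * (y₁ / x₁ + y₂ / x₂) =
        y₁ / x₁ * (y₂ / x₂) + W.a₂ + W.a₄ / x₁ + W.a₄ / x₂
          + W.a₄ * (x₁ * x₂ - W.a₄) / (x₁ * x₂ * x₃)) := by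
  by_cases hs : y₁ / x₁ + y₂ / x₂ = 0
  · left
    refine ⟨hs, ?_⟩
    have e₁ := hW.s_sq h₁.1 hx₁
    have e₂ := hW.s_sq h₂.1 hx₂
    have hsq : (y₁ / x₁) ^ 2 = (y₂ / x₂) ^ 2 := by
      have : y₁ / x₁ = -(y₂ / x₂) := by linear_combination hs
      rw [this]; ring
    have hprod : (x₁ - x₂) * (x₁ * x₂ - W.a₄) = 0 := by
      have h3 : x₁ + W.a₄ / x₁ = x₂ + W.a₄ / x₂ := by
        linear_combination e₂ - e₁ + hsq
      field_simp at h3
      linear_combination h3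
    have hx : x₁ = x₂ := by
      rcases mul_eq_zero.1 hprod with h | h
      · exact sub_eq_zero.1 h
      · exact absurd (sub_eq_zero.1 h) hne
    subst hx
    have hy : y₁ = W.negY x₁ y₂ := by
      rw [hW.negY]
      rw [← add_div, div_eq_zero_iff] at hs
      rcases hs with hs | hs
      · linear_combination hs
      · exact absurd hs hx₁
    exact Point.add_of_Y_eq rfl hy
  · right
    refine ⟨hs, ?_⟩
    obtain ⟨x₃, y₃, h₃, hadd, hX, hY⟩ := hW.add_some h₁ h₂ hx₁ hx₂ hs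
    have hx₃ : x₃ ≠ 0 := by
      rintro rfl
      rw [zero_mul] at hX
      exact hne (sub_eq_zero.1 (pow_eq_zero_iff (two_ne_zero)|>.1 hX.symm))
    refine ⟨x₃, y₃, h₃, hx₃, hadd, hX, ?_⟩
    have : y₃ / x₃ * (y₁ / x₁ + y₂ / x₂) = (y₃ * (y₁ / x₁ + y₂ / x₂)) / x₃ := by ring
    rw [this, hY]
    field_simp


omit [DecidableEq K] in
lemma IsLeg.nonsingular_T (hW : IsLeg W) (hw : W.a₄ ≠ 0) : W.Nonsingular 0 0 := by
  rw [Affine.nonsingular_zero]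
  exact ⟨hW.a₆, Or.inr hw⟩

/-- The two-torsion point `(0, 0)`. -/
def IsLeg.T (hW : IsLeg W) (hw : W.a₄ ≠ 0) : W.Point := Point.some 0 0 (hW.nonsingular_T hw)

lemma IsLeg.T_add_T (hW : IsLeg W) (hw : W.a₄ ≠ 0) : hW.T hw + hW.T hw = 0 := by
  unfold IsLeg.T
  exact Point.add_of_Y_eq rfl (by rw [hW.negY]; simp)

/-- Translation by `T = (0, 0)`. -/
lemma IsLeg.add_T (hW : IsLeg W) (hw : W.a₄ ≠ 0) {x y : K} (h : W.Nonsingular x y) (hx : x ≠ 0) :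
    ∃ x' y', ∃ h' : W.Nonsingular x' y', Point.some x y h + hW.T hw = Point.some x' y' h' ∧
      x' = W.a₄ / x ∧ y' / x' = -(y / x) := by
  have e := hW.s_sq h.1 hx
  unfold IsLeg.T
  have hX : W.addX x 0 (W.slope x 0 y 0) = W.a₄ / x := by
    rw [Affine.slope_of_X_ne hx, Affine.addX, hW.a₁]
    simp only [sub_zero]
    linear_combination e
  refine ⟨_, _, _, Point.add_of_X_ne hx, hX, ?_⟩
  rw [Affine.addY, Affine.negAddY, hX, hW.negY, Affine.slope_of_X_ne hx]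
  simp only [sub_zero]
  have hwx : W.a₄ / x ≠ 0 := div_ne_zero hw hx
  field_simp
  ring

end Fermat.Agent.S05.Mult63
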