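import Fermat.Agent.S05.Mult63.Types

set_option autoImplicit false

namespace Fermat.Agent.S05.Mult63

open WeierstrassCurve WeierstrassCurve.Affine

variable {K : Type*} [Field K] {Γ₀ : Type*} [LinearOrderedCommGroupWithZero Γ₀]
  (v : Valuation K Γ₀) {W : Affine K}

/-- The component with parameter `γ ∈ (v w, 1]`. -/
def Cl (r : K) (γ : Γ₀) (Q : W.Point) : Prop :=
  (γ = 1 ∧ TZ v Q) ∨ (v W.a₄ < γ ∧ γ < 1 ∧ TP v r γ Q)

variable [DecidableEq K]

/-- The component modulo translation by `T` and modulo powers of `v w`. -/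
def Kap (T : W.Point) (r : K) (γ : Γ₀) (Q : W.Point) : Prop :=
  ∃ n : ℤ, Cl v r (γ * v W.a₄ ^ n) Q ∨ Cl v r (γ * v W.a₄ ^ n) (Q + T)

lemma IsLeg.Cl_step (hW : IsLeg W) (hw : W.a₄ ≠ 0) (hu : v W.a₂ = 1) (h2 : v (2 : K) = 1)
    {r : K} {c γ : Γ₀} (hr : v (r ^ 2 - W.a₂) < 1) (hc : v W.a₄ < c) (hc1 : c < 1)
    {Q P : W.Point} (hQ : Cl v r γ Q) (hP : TP v r c P) :
    Cl v r (γ * c) (Q + P) ∨ Cl v r (γ * c * (v W.a₄)⁻¹) (Q + P + hW.T hw) := by
  have hω : v W.a₄ ≠ 0 := (v.ne_zero_iff).2 hw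
  have hω0 : 0 < v W.a₄ := zero_lt_iff.2 hω
  rcases hQ with ⟨rfl, hZ⟩ | ⟨h1, h1', hT⟩
  · left; right
    rw [one_mul]
    exact ⟨hc, hc1, hW.TZ_add_TP v hu h2 hr hc hc1 hZ hP⟩
  · obtain ⟨ha, hb, hcc⟩ := hW.TP_add_TP v hu h2 hr h1 hc hT hP
    have hγc0 : 0 < γ * c := mul_pos (hω0.trans h1) (hω0.trans hc)
    rcases lt_trichotomy (v W.a₄) (γ * c) with h | h | h
    · left; right
      exact ⟨h, mul_lt_one_of_nonneg_of_lt_one_left zero_le h1' hc1.le, ha h⟩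
    · right; left
      exact ⟨by rw [← h, mul_inv_cancel₀ hω], hW.TT_add_T v hw (hb h.symm)⟩
    · right; right
      have h3 := hW.TP_add_T v hw (div_ne_zero (pow_ne_zero 2 hω) hγc0.ne') (hcc h)
      rw [neg_neg] at h3
      have heq : v W.a₄ / (v W.a₄ ^ 2 / (γ * c)) = γ * c * (v W.a₄)⁻¹ := by
        rw [div_div_eq_mul_div, sq, mul_comm (v W.a₄) (γ * c), mul_div_mul_right _ _ hω,
          div_eq_mul_inv]
      rw [heq] at h3
      refine ⟨?_, ?_, h3⟩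
      · rw [← div_eq_mul_inv, lt_div_iff₀ hω0]
        exact mul_lt_mul'' h1 hc zero_le zero_le
      · rw [← div_eq_mul_inv, div_lt_one₀ hω0]
        exact h

lemma IsLeg.Kap_step (hW : IsLeg W) (hw : W.a₄ ≠ 0) (hu : v W.a₂ = 1) (h2 : v (2 : K) = 1)
    {r : K} {c γ : Γ₀} (hr : v (r ^ 2 - W.a₂) < 1) (hc : v W.a₄ < c) (hc1 : c < 1)
    {Q P : W.Point} (hQ : Kap v (hW.T hw) r γ Q) (hP : TP v r c P) :
    Kap v (hW.T hw) r (γ * c) (Q + P) := by
  have hω : v W.a₄ ≠ 0 := (v.ne_zero_iff).2 hw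
  have e1 : ∀ n : ℤ, γ * c * v W.a₄ ^ n = γ * v W.a₄ ^ n * c := fun n => mul_right_comm _ _ _
  have e2 : ∀ n : ℤ, γ * c * v W.a₄ ^ (n - 1) = γ * v W.a₄ ^ n * c * (v W.a₄)⁻¹ := by
    intro n
    rw [zpow_sub_one₀ hω, ← mul_assoc, e1]
  obtain ⟨n, h | h⟩ := hQ
  · rcases hW.Cl_step v hw hu h2 hr hc hc1 h hP with h' | h'
    · exact ⟨n, Or.inl (by rw [e1]; exact h')⟩
    · exact ⟨n - 1, Or.inr (by rw [e2]; exact h')⟩
  · rcases hW.Cl_step v hw hu h2 hr hc hc1 h hP with h' | h'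
    · exact ⟨n, Or.inr (by rw [e1, add_right_comm]; exact h')⟩
    · refine ⟨n - 1, Or.inl ?_⟩
      rw [e2]
      have : Q + hW.T hw + P + hW.T hw = Q + P := by
        rw [add_right_comm Q, add_assoc, hW.T_add_T hw, add_zero]
      rwa [this] at h'

/-- **Multiplicative case, main statement.**  On `y² = x³ + u x² + w x` with `u` and `2` units and
`v w = v d ^ p < 1`, a point killed by the odd number `p` and reducing to the node has
`v x = v d ^ j` for some `j`, and `v w < v x`. -/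
theorem IsLeg.val_x_of_torsion (hW : IsLeg W) (hu : v W.a₂ = 1) (h2 : v (2 : K) = 1) {p : ℕ}
    (hp : Odd p) {d : K} (hd0 : d ≠ 0) (hd : v d < 1) (hwd : v W.a₄ = v d ^ p) {x y : K}
    (h : W.Nonsingular x y) (hP : p • Point.some x y h = 0) (hx : v x < 1) :
    ∃ j : ℕ, v x = v d ^ j ∧ v W.a₄ < v x := by
  have hp0 : p ≠ 0 := by
    rintro rfl
    simp at hp
  have hvd : v d ≠ 0 := (v.ne_zero_iff).2 hd0
  have hvd0 : 0 < v d := zero_lt_iff.2 hvd
  have hω : v W.a₄ ≠ 0 := by rw [hwd]; exact pow_ne_zero _ hvd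
  have hw : W.a₄ ≠ 0 := (v.ne_zero_iff).1 hω
  have hω1 : v W.a₄ < 1 := by rw [hwd]; exact pow_lt_one₀ zero_le hd hp0
  have hTnot : ¬ TZ v (hW.T hw) := by
    intro hT
    have : (1 : Γ₀) ≤ v 0 := hT
    simp at this
  have hpT : p • hW.T hw = hW.T hw := by
    obtain ⟨k, rfl⟩ := hp
    rw [add_smul, mul_comm, mul_smul, two_smul, hW.T_add_T hw, smul_zero, zero_add, one_smul]
  -- Step 1
  have hc : v W.a₄ < v x := by
    by_contra hle
    rw [not_lt] at hle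
    have h1 : TT v (Point.some x y h) := hle
    have h3 := hW.TZ_nsmul v hu.le hω1 (hW.TT_add_T v hw h1) p
    rw [smul_add, hP, zero_add, hpT] at h3
    exact hTnot h3
  suffices hj : ∃ j : ℕ, v x = v d ^ j by
    obtain ⟨j, hj⟩ := hj
    exact ⟨j, hj, hc⟩
  have hx0 : x ≠ 0 := by
    rintro rfl
    rw [map_zero] at hc
    exact absurd hc (not_lt.2 zero_le)
  -- Step 2
  have hr : v ((y / x) ^ 2 - W.a₂) < 1 := by
    have : (y / x) ^ 2 - W.a₂ = x + W.a₄ / x := by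
      rw [hW.s_sq h.1 hx0]; ring
    rw [this]
    exact v.map_add_lt hx (vdiv_lt_one v hc)
  have hTP : TP v (y / x) (v x) (Point.some x y h) := ⟨rfl, by simp⟩
  -- Step 3
  have hK : ∀ k : ℕ, Kap v (hW.T hw) (y / x) (v x ^ k) (k • Point.some x y h) := by
    intro k
    induction k with
    | zero =>
      refine ⟨0, Or.inl (Or.inl ⟨by simp, ?_⟩)⟩
      rw [zero_smul]; trivial
    | succ k ih =>
      rw [succ_nsmul, pow_succ]
      exact hW.Kap_step v hw hu h2 hr hc hx ih hTP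
  -- Step 4
  obtain ⟨n, hn⟩ := hK p
  rw [hP, zero_add] at hn
  have hone : v x ^ p * v W.a₄ ^ n = 1 := by
    rcases hn with (⟨h1, -⟩ | ⟨-, -, hF⟩) | (⟨-, hF⟩ | ⟨h1, -, hF⟩)
    · exact h1
    · exact hF.elim
    · exact absurd hF hTnot
    · exfalso
      have h0 : v (0 : K) = v x ^ p * v W.a₄ ^ n := hF.1
      rw [map_zero] at h0
      rw [← h0] at h1
      exact absurd h1 (not_lt.2 zero_le)
  have hone' : (v x * v d ^ n) ^ p = 1 := by
    rw [mul_pow, ← zpow_natCast (v d ^ n) p, ← zpow_mul, mul_comm n, zpow_mul, zpow_natCast, ← hwd]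
    exact hone
  have h1 : v x * v d ^ n = 1 := (pow_eq_one_iff_of_nonneg zero_le hp0).1 hone'
  have h3 : v x = v d ^ (-n) := by
    rw [zpow_neg]; exact eq_inv_of_mul_eq_one_left h1
  have hn0 : 0 < -n := by
    rw [h3] at hx
    exact (zpow_lt_one_iff_right_of_lt_one₀ hvd0 hd).1 hx
  refine ⟨(-n).toNat, ?_⟩
  rw [h3, ← zpow_natCast, Int.toNat_of_nonneg hn0.le]

end Fermat.Agent.S05.Mult63
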