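import Fermat.Agent.S05.Mult63.Core

set_option autoImplicit false

namespace Fermat.Agent.S05.Mult63

open WeierstrassCurve WeierstrassCurve.Affine

variable {K : Type*} [Field K] {Γ₀ : Type*} [LinearOrderedCommGroupWithZero Γ₀]
  (v : Valuation K Γ₀) {W : Affine K}

/-- points reducing to the nonsingular locus -/
def TZ : W.Point → Prop
  | .zero => True
  | .some x _ _ => 1 ≤ v x

/-- points reducing to the node, on the branch with tangent direction `r`, at depth `c` -/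
def TP (r : K) (c : Γ₀) : W.Point → Prop
  | .zero => False
  | .some x y _ => v x = c ∧ v (y / x - r) < 1

/-- translates of `TZ` by `(0, 0)` -/
def TT : W.Point → Prop
  | .zero => False
  | .some x _ _ => v x ≤ v W.a₄

variable [DecidableEq K]

/-- `TZ` is closed under addition. -/
lemma IsLeg.TZ_add (hW : IsLeg W) (hu : v W.a₂ ≤ 1) (hw : v W.a₄ < 1) {P₁ P₂ : W.Point}
    (hP₁ : TZ v P₁) (hP₂ : TZ v P₂) : TZ v (P₁ + P₂) := by
  rcases P₁ with _ | ⟨x₁, y₁, h₁⟩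
  · change TZ v (0 + P₂)
    rwa [zero_add]
  rcases P₂ with _ | ⟨x₂, y₂, h₂⟩
  · change TZ v (Point.some x₁ y₁ h₁ + 0)
    rwa [add_zero]
  change 1 ≤ v x₁ at hP₁
  change 1 ≤ v x₂ at hP₂
  have hx₁0 : x₁ ≠ 0 := by
    rintro rfl
    simp at hP₁
  have hx₂0 : x₂ ≠ 0 := by
    rintro rfl
    simp at hP₂
  have h12 : 1 ≤ v x₁ * v x₂ := one_le_mul hP₁ hP₂
  have hwlt : v W.a₄ < v x₁ * v x₂ := hw.trans_le h12
  have hne : x₁ * x₂ ≠ W.a₄ := by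
    intro h
    rw [← h, map_mul] at hwlt
    exact lt_irrefl _ hwlt
  have sle : ∀ {x y : K}, W.Equation x y → 1 ≤ v x → v (y / x) ^ 2 ≤ v x := by
    intro x y h hx
    have hx0 : x ≠ 0 := by
      rintro rfl
      simp at hx
    rw [← map_pow, hW.s_sq h hx0]
    refine v.map_add_le (v.map_add_le le_rfl (hu.trans hx)) ?_
    rw [map_div₀]
    exact ((div_le_one₀ (zero_lt_one.trans_le hx)).2 (hw.le.trans hx)).trans hx
  rcases hW.add_cases h₁ h₂ hx₁0 hx₂0 hne with ⟨-, h⟩ | ⟨hs, x₃, y₃, h₃, hx₃, hadd, hX, -⟩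
  · rw [h]; trivial
  · rw [hadd]
    change 1 ≤ v x₃
    have hv := congrArg v hX
    have hsub : v (x₁ * x₂ - W.a₄) = v x₁ * v x₂ := by
      rw [← map_mul]
      exact v.map_sub_eq_of_lt_left (by rwa [map_mul])
    simp only [map_mul, map_pow, hsub] at hv
    set t := v (y₁ / x₁ + y₂ / x₂) with ht
    have ha : v x₁ ≠ 0 := (v.ne_zero_iff).2 hx₁0
    have hb : v x₂ ≠ 0 := (v.ne_zero_iff).2 hx₂0
    have hv' : v x₃ * t ^ 2 = v x₁ * v x₂ := by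
      have hab : v x₁ * v x₂ ≠ 0 := mul_ne_zero ha hb
      apply mul_left_cancel₀ hab
      calc v x₁ * v x₂ * (v x₃ * t ^ 2) = v x₃ * (v x₁ * v x₂ * t ^ 2) := by ac_rfl
        _ = (v x₁ * v x₂) ^ 2 := hv
        _ = v x₁ * v x₂ * (v x₁ * v x₂) := sq _
    have ht0 : 0 < t ^ 2 := by
      have : t ≠ 0 := (v.ne_zero_iff).2 hs
      exact pow_pos (zero_lt_iff.2 this) 2
    have hs₁ := sle h₁.1 hP₁
    have hs₂ := sle h₂.1 hP₂
    by_contra hlt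
    rw [not_le] at hlt
    have h1 : v x₃ * t ^ 2 < 1 * t ^ 2 := mul_lt_mul_of_pos_right hlt ht0
    have h2 : 1 * t ^ 2 ≤ v x₁ * v x₂ := by
      rcases v.map_add' (y₁ / x₁) (y₂ / x₂) with h | h
      · calc 1 * t ^ 2 ≤ v x₂ * v (y₁ / x₁) ^ 2 :=
              mul_le_mul' hP₂ (pow_le_pow_left₀ zero_le h 2)
          _ ≤ v x₂ * v x₁ := mul_le_mul' le_rfl hs₁
          _ = v x₁ * v x₂ := mul_comm _ _
      · calc 1 * t ^ 2 ≤ v x₁ * v (y₂ / x₂) ^ 2 :=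
              mul_le_mul' hP₁ (pow_le_pow_left₀ zero_le h 2)
          _ ≤ v x₁ * v x₂ := mul_le_mul' le_rfl hs₂
    rw [hv'] at h1
    exact absurd h2 (not_le.2 h1)

lemma IsLeg.TZ_nsmul (hW : IsLeg W) (hu : v W.a₂ ≤ 1) (hw : v W.a₄ < 1) {P : W.Point}
    (hP : TZ v P) (n : ℕ) : TZ v (n • P) := by
  induction n with
  | zero => rw [zero_smul]; trivial
  | succ n ih => rw [succ_nsmul]; exact hW.TZ_add v hu hw ih hP

/-- `TZ + TP r c ⊆ TP r c`. -/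
lemma IsLeg.TZ_add_TP (hW : IsLeg W) (hu : v W.a₂ = 1) (h2 : v (2 : K) = 1) {r : K} {c : Γ₀}
    (hr : v (r ^ 2 - W.a₂) < 1) (hc : v W.a₄ < c) (hc1 : c < 1) {P₁ P₂ : W.Point}
    (hP₁ : TZ v P₁) (hP₂ : TP v r c P₂) : TP v r c (P₁ + P₂) := by
  rcases P₁ with _ | ⟨x₁, y₁, h₁⟩
  · change TP v r c (0 + P₂)
    rwa [zero_add]
  rcases P₂ with _ | ⟨x₂, y₂, h₂⟩
  · exact hP₂.elim
  change 1 ≤ v x₁ at hP₁
  obtain ⟨hx₂, hs₂⟩ : v x₂ = c ∧ v (y₂ / x₂ - r) < 1 := hP₂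
  have hr1 : v r = 1 := val_eq_one_of_sq v hu hr
  have hc0 : 0 < c := lt_of_le_of_lt zero_le hc
  have hx₁0 : x₁ ≠ 0 := by
    rintro rfl
    simp at hP₁
  have hx₂0 : x₂ ≠ 0 := by
    rintro rfl
    rw [map_zero] at hx₂
    exact hc0.ne hx₂
  have hw1 : v W.a₄ < 1 := hc.trans hc1
  have hcm : c ≤ v x₁ * v x₂ := by
    rw [hx₂]; exact le_mul_of_one_le_left zero_le hP₁
  have hne : x₁ * x₂ ≠ W.a₄ := by
    intro h
    rw [← map_mul, h] at hcm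
    exact absurd hcm (not_le.2 hc)
  set s₁ := y₁ / x₁ with hs₁def
  set s₂ := y₂ / x₂ with hs₂def
  have hvs₂ : v s₂ = 1 := by
    have : s₂ = r + (s₂ - r) := by ring
    rw [this, v.map_add_eq_of_lt_left (by rw [hr1]; exact hs₂), hr1]
  have h2s₂ : v (2 * s₂) = 1 := by rw [map_mul, h2, hvs₂, one_mul]
  -- the product `(s₁ + s₂)(s₁ - s₂)`
  have hD : (s₁ + s₂) * (s₁ - s₂) = x₁ + (W.a₄ / x₁ - x₂ - W.a₄ / x₂) := by
    have e₁ := hW.s_sq h₁.1 hx₁0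
    have e₂ := hW.s_sq h₂.1 hx₂0
    linear_combination e₁ - e₂
  have hvD : v (s₁ + s₂) * v (s₁ - s₂) = v x₁ := by
    rw [← map_mul, hD]
    refine v.map_add_eq_of_lt_left (lt_of_lt_of_le ?_ hP₁)
    refine v.map_sub_lt (v.map_sub_lt ?_ ?_) ?_
    · exact vdiv_lt_one v (hw1.trans_le hP₁)
    · rw [hx₂]; exact hc1
    · exact vdiv_lt_one v (by rw [hx₂]; exact hc)
  have hle₁ : v (s₁ - s₂) ≤ max (v (s₁ + s₂)) 1 := by
    have : s₁ - s₂ = (s₁ + s₂) - 2 * s₂ := by ring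
    rw [this, ← h2s₂]
    exact v.map_sub _ _
  have hle₂ : v (s₁ + s₂) ≤ max (v (s₁ - s₂)) 1 := by
    have : s₁ + s₂ = (s₁ - s₂) + 2 * s₂ := by ring
    rw [this, ← h2s₂]
    exact v.map_add _ _
  have ht : 1 ≤ v (s₁ + s₂) := by
    by_contra hlt
    rw [not_le] at hlt
    have h1 : v (s₁ - s₂) ≤ 1 := by
      rwa [max_eq_right hlt.le] at hle₁
    have : v (s₁ + s₂) * v (s₁ - s₂) < 1 := mul_lt_one_of_nonneg_of_lt_one_left zero_le hlt h1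
    rw [hvD] at this
    exact absurd hP₁ (not_le.2 this)
  have ht' : 1 ≤ v (s₁ - s₂) := by
    by_contra hlt
    rw [not_le] at hlt
    have h1 : v (s₁ + s₂) ≤ 1 := by
      rwa [max_eq_right hlt.le] at hle₂
    have : v (s₁ + s₂) * v (s₁ - s₂) < 1 := mul_lt_one_of_nonneg_of_lt_one_right h1 zero_le hlt
    rw [hvD] at this
    exact absurd hP₁ (not_le.2 this)
  have hteq : v (s₁ - s₂) = v (s₁ + s₂) := by
    rw [max_eq_left ht] at hle₁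
    rw [max_eq_left ht'] at hle₂
    exact le_antisymm hle₁ hle₂
  have htsq : v (s₁ + s₂) ^ 2 = v x₁ := by
    rw [sq]; rw [hteq] at hvD; exact hvD
  have ht0 : 0 < v (s₁ + s₂) := zero_lt_one.trans_le ht
  have hs0 : s₁ + s₂ ≠ 0 := (v.ne_zero_iff).1 ht0.ne'
  rcases hW.add_cases h₁ h₂ hx₁0 hx₂0 hne with ⟨h, -⟩ | ⟨hs, x₃, y₃, h₃, hx₃, hadd, hX, hY⟩
  · exact absurd h hs0
  · rw [hadd]
    have hωt : v W.a₄ * v (s₁ + s₂) < v x₁ * v x₂ := by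
      rw [hx₂, ← htsq, sq]
      calc v W.a₄ * v (s₁ + s₂) < c * v (s₁ + s₂) := mul_lt_mul_of_pos_right hc ht0
        _ ≤ c * (v (s₁ + s₂) * v (s₁ + s₂)) :=
            mul_le_mul' le_rfl (le_mul_of_one_le_left zero_le ht)
        _ = v (s₁ + s₂) * v (s₁ + s₂) * c := mul_comm _ _
    have hs₁r : v (s₁ - r) ≤ v (s₁ + s₂) := by
      have : s₁ - r = (s₁ + s₂) - (2 * r + (s₂ - r)) := by ring
      rw [this]
      refine v.map_sub_le le_rfl (le_trans ?_ ht)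
      refine v.map_add_le ?_ hs₂.le
      rw [map_mul, h2, hr1, one_mul]
    obtain ⟨hv, hs₃⟩ := core_same v hx₁0 hx₂0 hx₃ hX hY ht hωt hs₁r hs₂ hr
      (hw1.trans_le hP₁) (by rw [hx₂]; exact hc)
    refine ⟨?_, hs₃⟩
    rw [htsq, hx₂, mul_comm] at hv
    exact mul_left_cancel₀ ((v.ne_zero_iff).2 hx₁0) hv

/-- Addition of two points on the same branch. -/
lemma IsLeg.TP_add_TP (hW : IsLeg W) (hu : v W.a₂ = 1) (h2 : v (2 : K) = 1) {r : K} {c₁ c₂ : Γ₀}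
    (hr : v (r ^ 2 - W.a₂) < 1) (hc₁ : v W.a₄ < c₁) (hc₂ : v W.a₄ < c₂)
    {P₁ P₂ : W.Point} (hP₁ : TP v r c₁ P₁) (hP₂ : TP v r c₂ P₂) :
    (v W.a₄ < c₁ * c₂ → TP v r (c₁ * c₂) (P₁ + P₂)) ∧
    (c₁ * c₂ = v W.a₄ → TT v (P₁ + P₂)) ∧
    (c₁ * c₂ < v W.a₄ → TP v (-r) (v W.a₄ ^ 2 / (c₁ * c₂)) (P₁ + P₂)) := by
  rcases P₁ with _ | ⟨x₁, y₁, h₁⟩
  · exact hP₁.elim
  rcases P₂ with _ | ⟨x₂, y₂, h₂⟩
  · exact hP₂.elim
  obtain ⟨hx₁, hs₁⟩ : v x₁ = c₁ ∧ v (y₁ / x₁ - r) < 1 := hP₁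
  obtain ⟨hx₂, hs₂⟩ : v x₂ = c₂ ∧ v (y₂ / x₂ - r) < 1 := hP₂
  have hr1 : v r = 1 := val_eq_one_of_sq v hu hr
  have hc₁0 : 0 < c₁ := lt_of_le_of_lt zero_le hc₁
  have hc₂0 : 0 < c₂ := lt_of_le_of_lt zero_le hc₂
  have hx₁0 : x₁ ≠ 0 := by
    rintro rfl
    rw [map_zero] at hx₁
    exact hc₁0.ne hx₁
  have hx₂0 : x₂ ≠ 0 := by
    rintro rfl
    rw [map_zero] at hx₂
    exact hc₂0.ne hx₂
  have ht : v (y₁ / x₁ + y₂ / x₂) = 1 := val_add_eq_one v h2 hr1 hs₁ hs₂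
  have hs0 : y₁ / x₁ + y₂ / x₂ ≠ 0 := by
    intro h; rw [h] at ht; simp at ht
  refine ⟨fun hlt => ?_, fun heq => ?_, fun hlt => ?_⟩
  · have hne : x₁ * x₂ ≠ W.a₄ := by
      intro h
      rw [← h, map_mul, hx₁, hx₂] at hlt
      exact lt_irrefl _ hlt
    rcases hW.add_cases h₁ h₂ hx₁0 hx₂0 hne with ⟨h, -⟩ | ⟨hs, x₃, y₃, h₃, hx₃, hadd, hX, hY⟩
    · exact absurd h hs0
    · rw [hadd]
      obtain ⟨hv, hs₃⟩ := core_same v hx₁0 hx₂0 hx₃ hX hY ht.ge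
        (by rw [ht, mul_one, hx₁, hx₂]; exact hlt) (by rw [ht]; exact hs₁.le) hs₂ hr
        (by rw [hx₁]; exact hc₁) (by rw [hx₂]; exact hc₂)
      refine ⟨?_, hs₃⟩
      rw [ht, one_pow, mul_one, hx₁, hx₂] at hv
      exact hv
  · obtain ⟨x₃, y₃, h₃, hadd, hX, -⟩ := hW.add_some h₁ h₂ hx₁0 hx₂0 hs0
    rw [hadd]
    change v x₃ ≤ v W.a₄
    have hv := congrArg v hX
    simp only [map_mul, map_pow, ht, one_pow, mul_one, hx₁, hx₂, heq] at hv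
    have hle : v (x₁ * x₂ - W.a₄) ≤ v W.a₄ :=
      v.map_sub_le (by rw [map_mul, hx₁, hx₂, heq]) le_rfl
    have hw0 : 0 < v W.a₄ := by rw [← heq]; exact mul_pos hc₁0 hc₂0
    have : v x₃ * v W.a₄ ≤ v W.a₄ * v W.a₄ := by
      rw [hv, sq]; exact mul_le_mul' hle hle
    exact le_of_mul_le_mul_right this hw0
  · have hne : x₁ * x₂ ≠ W.a₄ := by
      intro h
      rw [← h, map_mul, hx₁, hx₂] at hlt
      exact lt_irrefl _ hlt
    rcases hW.add_cases h₁ h₂ hx₁0 hx₂0 hne with ⟨h, -⟩ | ⟨hs, x₃, y₃, h₃, hx₃, hadd, hX, hY⟩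
    · exact absurd h hs0
    · rw [hadd]
      obtain ⟨hv, hs₃⟩ := core_flip v hx₁0 hx₂0 hx₃ hX hY h2 hr1 hs₁ hs₂ hr
        (by rw [hx₁]; exact hc₁) (by rw [hx₂]; exact hc₂) (by rw [hx₁, hx₂]; exact hlt)
      refine ⟨?_, by rw [sub_neg_eq_add]; exact hs₃⟩
      rw [hx₁, hx₂] at hv
      rw [eq_div_iff (mul_pos hc₁0 hc₂0).ne']
      exact hv

/-- translation by `T` maps `TT` to `TZ` -/
lemma IsLeg.TT_add_T (hW : IsLeg W) (hw : W.a₄ ≠ 0) {P : W.Point} (hP : TT v P) :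
    TZ v (P + hW.T hw) := by
  rcases P with _ | ⟨x, y, h⟩
  · exact hP.elim
  change v x ≤ v W.a₄ at hP
  by_cases hx : x = 0
  · subst hx
    have hy : y = 0 := by
      have := (hW.equation_iff 0 y).1 h.1
      simpa using this
    subst hy
    have : Point.some 0 0 h + hW.T hw = 0 := hW.T_add_T hw
    rw [this]; trivial
  · obtain ⟨x', y', h', hadd, hx', -⟩ := hW.add_T hw h hx
    rw [hadd]
    change 1 ≤ v x'
    rw [hx', map_div₀, one_le_div₀ (zero_lt_iff.2 ((v.ne_zero_iff).2 hx))]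
    exact hP

/-- translation by `T` swaps the branches -/
lemma IsLeg.TP_add_T (hW : IsLeg W) (hw : W.a₄ ≠ 0) {r : K} {c : Γ₀} (hc : c ≠ 0) {P : W.Point}
    (hP : TP v r c P) : TP v (-r) (v W.a₄ / c) (P + hW.T hw) := by
  rcases P with _ | ⟨x, y, h⟩
  · exact hP.elim
  obtain ⟨hx, hs⟩ : v x = c ∧ v (y / x - r) < 1 := hP
  have hx0 : x ≠ 0 := by
    rintro rfl
    rw [map_zero] at hx
    exact hc hx.symm
  obtain ⟨x', y', h', hadd, hx', hs'⟩ := hW.add_T hw h hx0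
  rw [hadd]
  refine ⟨by rw [hx', map_div₀, hx], ?_⟩
  rw [hs']
  have : -(y / x) - -r = -(y / x - r) := by ring
  rw [this, Valuation.map_neg]
  exact hs

end Fermat.Agent.S05.Mult63
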